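import Fermat.Agent.S51.Torsion

set_option autoImplicit false
set_option linter.unusedSectionVars false

namespace Fermat.Agent.S51

open WeierstrassCurve WeierstrassCurve.Affine

section generator

lemma exists_generator {p : ℕ} [Fact p.Prime] {V : Type*} [AddCommGroup V] [Module (ZMod p) V]
    [Finite V] (hcard : Nat.card V < p ^ 3) (N : Submodule (ZMod p) V) (h0 : N ≠ ⊥) (h1 : N ≠ ⊤) :
    ∃ v ∈ N, v ≠ 0 ∧ ∀ w ∈ N, ∃ c : ZMod p, w = c • v := by
  have hfin : Module.Finite (ZMod p) V := Module.Finite.of_finite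
  have hc := Module.natCard_eq_pow_finrank (K := ZMod p) (V := V)
  rw [Nat.card_zmod] at hc
  rw [hc] at hcard
  have hp : 1 < p := (Fact.out : p.Prime).one_lt
  have hr : Module.finrank (ZMod p) V < 3 := (Nat.pow_lt_pow_iff_right hp).1 hcard
  have hlt := Submodule.finrank_lt h1
  have hpos : 1 ≤ Module.finrank (ZMod p) N := Submodule.one_le_finrank_iff.2 h0
  have h1' : Module.finrank (ZMod p) N = 1 := by omega
  obtain ⟨v, hv, hw⟩ := finrank_eq_one_iff'.1 h1'
  refine ⟨v, v.2, fun h => hv (Subtype.ext h), fun w hwN => ?_⟩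
  obtain ⟨c, hc⟩ := hw ⟨w, hwN⟩
  exact ⟨c, by rw [← Submodule.coe_smul, hc]⟩

end generator

variable {K : Type*} [Field K] [CharZero K] [DecidableEq K] {E : Affine K}

lemma fiber_ncard_le (x : K) : {P : E.Point | P ≠ 0 ∧ Xc P = x}.Finite ∧
    {P : E.Point | P ≠ 0 ∧ Xc P = x}.ncard ≤ 2 := by
  by_cases hne : {P : E.Point | P ≠ 0 ∧ Xc P = x}.Nonempty
  · obtain ⟨P₀, hP₀, hx⟩ := hne
    have hsub : {P : E.Point | P ≠ 0 ∧ Xc P = x} ⊆ {P₀, -P₀} := by
      rintro P ⟨hP, hPx⟩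
      rcases (Xc_eq_iff hP hP₀).1 (hPx.trans hx.symm) with h | h
      · left; exact h
      · right; exact h
    have hfin : ({P₀, -P₀} : Set E.Point).Finite := by simp
    exact ⟨hfin.subset hsub, (Set.ncard_le_ncard hsub hfin).trans
      ((Set.ncard_insert_le _ _).trans (by rw [Set.ncard_singleton]))⟩
  · rw [Set.not_nonempty_iff_eq_empty] at hne
    rw [hne]; simp

lemma finite_and_ncard_le (p : Polynomial K) (hp : p ≠ 0) (S : Set E.Point)
    (hS : ∀ P ∈ S, P ≠ 0 → p.IsRoot (Xc P)) : S.Finite ∧ S.ncard ≤ 2 * p.natDegree + 1 := by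
  have hsub : S ⊆ {0} ∪ ⋃ x ∈ p.roots.toFinset, {P : E.Point | P ≠ 0 ∧ Xc P = x} := by
    intro P hP
    by_cases h0 : P = 0
    · left; exact h0
    · right
      simp only [Set.mem_iUnion]
      refine ⟨Xc P, ?_, h0, rfl⟩
      rw [Multiset.mem_toFinset, Polynomial.mem_roots hp]
      exact hS P hP h0
  have hfinU : (⋃ x ∈ p.roots.toFinset, {P : E.Point | P ≠ 0 ∧ Xc P = x}).Finite :=
    Set.Finite.biUnion (Finset.finite_toSet _) (fun x _ => (fiber_ncard_le x).1)
  have hfin : ({0} ∪ ⋃ x ∈ p.roots.toFinset, {P : E.Point | P ≠ 0 ∧ Xc P = x}).Finite :=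
    (Set.finite_singleton _).union hfinU
  refine ⟨hfin.subset hsub, (Set.ncard_le_ncard hsub hfin).trans ?_⟩
  refine (Set.ncard_union_le _ _).trans ?_
  rw [Set.ncard_singleton, add_comm]
  refine Nat.add_le_add_right ?_ 1
  refine (Finset.set_ncard_biUnion_le _ _).trans ?_
  calc ∑ x ∈ p.roots.toFinset, {P : E.Point | P ≠ 0 ∧ Xc P = x}.ncard
      ≤ ∑ _x ∈ p.roots.toFinset, 2 := Finset.sum_le_sum (fun x _ => (fiber_ncard_le x).2)
    _ = p.roots.toFinset.card * 2 := by rw [Finset.sum_const, smul_eq_mul]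
    _ ≤ p.natDegree * 2 := Nat.mul_le_mul_right _
        ((Multiset.toFinset_card_le _).trans (Polynomial.card_roots' p))
    _ = 2 * p.natDegree := by ring


open Polynomial in
noncomputable def P3p (A B : K) : Polynomial K :=
  C 3 * X ^ 4 + C (6 * A) * X ^ 2 + C (12 * B) * X - C (A ^ 2)

open Polynomial in
lemma P3p_natDegree (A B : K) : (P3p A B).natDegree = 4 := by
  unfold P3p
  compute_degree!

open Polynomial in
lemma P3p_eval (A B x : K) : (P3p A B).eval x = psi3 A B x := by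
  unfold P3p psi3
  simp only [eval_sub, eval_add, eval_mul, eval_pow, eval_X, eval_C]

open Polynomial in
noncomputable def Fp (A B : K) : Polynomial K := C 4 * (X ^ 3 + C A * X + C B)
open Polynomial in
noncomputable def Gp (A B : K) : Polynomial K :=
  X ^ 4 - C (2 * A) * X ^ 2 - C (8 * B) * X + C (A ^ 2)
open Polynomial in
noncomputable def Hp (A B : K) : Polynomial K :=
  Gp A B ^ 4 - C (2 * A) * Gp A B ^ 2 * Fp A B ^ 2 - C (8 * B) * Gp A B * Fp A B ^ 3
    + C (A ^ 2) * Fp A B ^ 4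
    - C 4 * X * (Gp A B ^ 3 * Fp A B + C A * Gp A B * Fp A B ^ 3 + C B * Fp A B ^ 4)

open Polynomial in
lemma Hp_natDegree (A B : K) : (Hp A B).natDegree = 16 := by
  unfold Hp Gp Fp
  compute_degree!

open Polynomial in
lemma Hp_eval (A B x : K) : (Hp A B).eval x =
    gg A B x ^ 4 - 2 * A * gg A B x ^ 2 * (4 * ff A B x) ^ 2 - 8 * B * gg A B x * (4 * ff A B x) ^ 3
      + A ^ 2 * (4 * ff A B x) ^ 4
      - 4 * x * (gg A B x ^ 3 * (4 * ff A B x) + A * gg A B x * (4 * ff A B x) ^ 3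
        + B * (4 * ff A B x) ^ 4) := by
  unfold Hp Gp Fp gg ff
  simp only [eval_sub, eval_add, eval_mul, eval_pow, eval_X, eval_C]

lemma Hp_root {A B X₁ X₂ : K} (h12 : X₂ * (4 * ff A B X₁) = gg A B X₁)
    (h21 : X₁ * (4 * ff A B X₂) = gg A B X₂) : (Hp A B).IsRoot X₁ := by
  rw [Polynomial.IsRoot, Hp_eval, ← h12]
  unfold ff gg at h21
  linear_combination (-(4 * ff A B X₁) ^ 4) * h21

lemma card_three_torsion : Finite (Submodule.torsionBy ℤ E.Point ((3 : ℕ) : ℤ)) ∧
    Nat.card (Submodule.torsionBy ℤ E.Point ((3 : ℕ) : ℤ)) < 3 ^ 3 := by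
  have hne : P3p (sA E) (sB E) ≠ 0 := by
    intro h
    have := P3p_natDegree (sA E) (sB E)
    rw [h] at this
    simp at this
  have := finite_and_ncard_le (P3p (sA E) (sB E)) hne
    ((Submodule.torsionBy ℤ E.Point ((3 : ℕ) : ℤ) : Submodule ℤ E.Point) : Set E.Point) (by
      intro P hP h0
      rw [SetLike.mem_coe, Submodule.mem_torsionBy_iff, Nat.cast_ofNat] at hP
      rw [Polynomial.IsRoot, P3p_eval]
      exact psi3_of_three_torsion h0 hP)
  rw [P3p_natDegree] at this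
  refine ⟨this.1, ?_⟩
  have h2 : Nat.card (Submodule.torsionBy ℤ E.Point ((3 : ℕ) : ℤ)) =
    ((Submodule.torsionBy ℤ E.Point ((3 : ℕ) : ℤ) : Submodule ℤ E.Point) : Set E.Point).ncard :=
    Nat.card_coe_set_eq _
  rw [h2]
  omega

lemma card_five_torsion : Finite (Submodule.torsionBy ℤ E.Point ((5 : ℕ) : ℤ)) ∧
    Nat.card (Submodule.torsionBy ℤ E.Point ((5 : ℕ) : ℤ)) < 5 ^ 3 := by
  have hne : Hp (sA E) (sB E) ≠ 0 := by
    intro h
    have := Hp_natDegree (sA E) (sB E)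
    rw [h] at this
    simp at this
  have := finite_and_ncard_le (Hp (sA E) (sB E)) hne
    ((Submodule.torsionBy ℤ E.Point ((5 : ℕ) : ℤ) : Submodule ℤ E.Point) : Set E.Point) (by
      intro P hP h0
      rw [SetLike.mem_coe, Submodule.mem_torsionBy_iff, Nat.cast_ofNat] at hP
      obtain ⟨-, h12, h21, -, -⟩ := rel_of_five_torsion h0 hP
      exact Hp_root h12 h21)
  rw [Hp_natDegree] at this
  refine ⟨this.1, ?_⟩
  have h2 : Nat.card (Submodule.torsionBy ℤ E.Point ((5 : ℕ) : ℤ)) =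
    ((Submodule.torsionBy ℤ E.Point ((5 : ℕ) : ℤ) : Submodule ℤ E.Point) : Set E.Point).ncard :=
    Nat.card_coe_set_eq _
  rw [h2]
  omega

end Fermat.Agent.S51
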