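import Fermat.Agent.S51.Torsion

set_option autoImplicit false
set_option linter.unusedSectionVars false

namespace Fermat.Agent.S51

open WeierstrassCurve WeierstrassCurve.Affine

variable {K : Type*} [Field K] [CharZero K]

/-- first relation for `s = X₁ + X₂`, `m = X₁ X₂` -/
def r1 (A B s m : K) : K := s ^ 3 - 6 * m * s - 2 * A * s - 4 * B
/-- second relation -/
def r2 (A s m : K) : K := A ^ 2 + 2 * A * s ^ 2 - 2 * A * m - s ^ 4 + 5 * m * s ^ 2 + 5 * m ^ 2

lemma e12_eq (A B X₁ X₂ : K) :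
    X₂ * (4 * ff A B X₁) - gg A B X₁ =
      - r2 A (X₁ + X₂) (X₁ * X₂) - (3 * (X₁ + X₂) + (X₁ - X₂)) / 2 * r1 A B (X₁ + X₂) (X₁ * X₂) := by
  unfold ff gg r1 r2; ring

/-- from the two duplication relations to `r1 = 0`, `r2 = 0`. -/
lemma r1_r2_of_rel {A B X₁ X₂ : K} (h12 : X₂ * (4 * ff A B X₁) = gg A B X₁)
    (h21 : X₁ * (4 * ff A B X₂) = gg A B X₂) (hne : X₁ ≠ X₂) :
    r1 A B (X₁ + X₂) (X₁ * X₂) = 0 ∧ r2 A (X₁ + X₂) (X₁ * X₂) = 0 := by
  have e1 := e12_eq A B X₁ X₂
  have e2 := e12_eq A B X₂ X₁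
  rw [h12, sub_self] at e1
  rw [h21, sub_self, add_comm X₂ X₁, mul_comm X₂ X₁] at e2
  have hr1 : r1 A B (X₁ + X₂) (X₁ * X₂) = 0 := by
    have : (X₁ - X₂) * r1 A B (X₁ + X₂) (X₁ * X₂) = 0 := by linear_combination e1 - e2
    exact (mul_eq_zero.1 this).resolve_left (sub_ne_zero.2 hne)
  refine ⟨hr1, ?_⟩
  rw [hr1] at e1
  linear_combination e1

lemma exists_s [IsAlgClosed K] {A B : K} (hd : 4 * A ^ 3 + 27 * B ^ 2 ≠ 0) :
    ∃ s : K, s ≠ 0 ∧
      s ^ 6 + 20 * A * s ^ 4 + 160 * B * s ^ 3 - 80 * A ^ 2 * s ^ 2 - 128 * A * B * s - 80 * B ^ 2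
        = 0 := by
  by_cases hB : B = 0
  · subst hB
    have hA : A ≠ 0 := by
      rintro rfl
      simp at hd
    obtain ⟨s, hs⟩ := IsAlgClosed.exists_root
      (Polynomial.X ^ 4 + Polynomial.C (20 * A) * Polynomial.X ^ 2 - Polynomial.C (80 * A ^ 2)
        : Polynomial K) (by
        intro h
        have : (Polynomial.X ^ 4 + Polynomial.C (20 * A) * Polynomial.X ^ 2
          - Polynomial.C (80 * A ^ 2) : Polynomial K).degree = 4 := by
          compute_degree!
        rw [this] at h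
        exact absurd h (by decide))
    simp only [Polynomial.IsRoot, Polynomial.eval_sub, Polynomial.eval_add, Polynomial.eval_pow,
      Polynomial.eval_X, Polynomial.eval_mul, Polynomial.eval_C] at hs
    refine ⟨s, ?_, by linear_combination s ^ 2 * hs⟩
    rintro rfl
    apply hA
    have : 80 * A ^ 2 = 0 := by linear_combination -hs
    simpa using this
  · obtain ⟨s, hs⟩ := IsAlgClosed.exists_root
      (Polynomial.X ^ 6 + Polynomial.C (20 * A) * Polynomial.X ^ 4
        + Polynomial.C (160 * B) * Polynomial.X ^ 3 - Polynomial.C (80 * A ^ 2) * Polynomial.X ^ 2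
        - Polynomial.C (128 * A * B) * Polynomial.X - Polynomial.C (80 * B ^ 2)
        : Polynomial K) (by
        intro h
        have : (Polynomial.X ^ 6 + Polynomial.C (20 * A) * Polynomial.X ^ 4
        + Polynomial.C (160 * B) * Polynomial.X ^ 3 - Polynomial.C (80 * A ^ 2) * Polynomial.X ^ 2
        - Polynomial.C (128 * A * B) * Polynomial.X - Polynomial.C (80 * B ^ 2)
        : Polynomial K).degree = 6 := by
          compute_degree!
        rw [this] at h
        exact absurd h (by decide))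
    simp only [Polynomial.IsRoot, Polynomial.eval_sub, Polynomial.eval_add, Polynomial.eval_pow,
      Polynomial.eval_X, Polynomial.eval_mul, Polynomial.eval_C] at hs
    refine ⟨s, ?_, hs⟩
    rintro rfl
    apply hB
    have : 80 * B ^ 2 = 0 := by linear_combination -hs
    simpa using this

lemma exists_pair [IsAlgClosed K] {A B : K} (hd : 4 * A ^ 3 + 27 * B ^ 2 ≠ 0) :
    ∃ X₁ X₂ : K, X₁ ≠ X₂ ∧ X₂ * (4 * ff A B X₁) = gg A B X₁ ∧ X₁ * (4 * ff A B X₂) = gg A B X₂ := by
  obtain ⟨s, hs0, hs⟩ := exists_s hd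
  obtain ⟨m, hm'⟩ : ∃ m : K, 6 * s * m = s ^ 3 - 2 * A * s - 4 * B :=
    ⟨(s ^ 3 - 2 * A * s - 4 * B) / (6 * s), by field_simp⟩
  have hr1 : r1 A B s m = 0 := by unfold r1; linear_combination -hm'
  have hr2 : r2 A s m = 0 := by
    have h36 : 36 * s ^ 2 * r2 A s m = 0 := by
      unfold r2
      linear_combination -hs + (-12 * A * s + 30 * s ^ 3 + 5 * (6 * s * m)
        + 5 * (s ^ 3 - 2 * A * s - 4 * B)) * hm'
    have : (36 * s ^ 2 : K) ≠ 0 := mul_ne_zero (by norm_num) (pow_ne_zero 2 hs0)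
    exact (mul_eq_zero.1 h36).resolve_left this
  obtain ⟨X₁, hX₁⟩ := IsAlgClosed.exists_root
      (Polynomial.X ^ 2 - Polynomial.C s * Polynomial.X + Polynomial.C m : Polynomial K) (by
        intro h
        have : (Polynomial.X ^ 2 - Polynomial.C s * Polynomial.X + Polynomial.C m
          : Polynomial K).degree = 2 := by
          compute_degree!
        rw [this] at h
        exact absurd h (by decide))
  simp only [Polynomial.IsRoot, Polynomial.eval_sub, Polynomial.eval_add, Polynomial.eval_pow,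
      Polynomial.eval_X, Polynomial.eval_mul, Polynomial.eval_C] at hX₁
  have hsum : X₁ + (s - X₁) = s := by ring
  have hprod : X₁ * (s - X₁) = m := by linear_combination -hX₁
  refine ⟨X₁, s - X₁, ?_, ?_, ?_⟩
  · intro h
    -- then `s = 2 X₁`, `m = X₁ ^ 2`
    have hs2 : s = 2 * X₁ := by linear_combination -h
    have hm2 : m = X₁ ^ 2 := by rw [← hprod, ← h]; ring
    apply hd
    unfold r1 at hr1
    unfold r2 at hr2
    rw [hs2, hm2] at hr1 hr2
    have hA : A = -3 * X₁ ^ 2 := by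
      have : (A + 3 * X₁ ^ 2) ^ 2 = 0 := by linear_combination hr2
      have := pow_eq_zero_iff (two_ne_zero) |>.1 this
      linear_combination this
    have hB : B = 2 * X₁ ^ 3 := by
      rw [hA] at hr1
      linear_combination (-1 / 4 : K) * hr1
    rw [hA, hB]; ring
  · have := e12_eq A B X₁ (s - X₁)
    rw [hsum, hprod, hr1, hr2] at this
    linear_combination this
  · have := e12_eq A B (s - X₁) X₁
    rw [add_comm (s - X₁) X₁, mul_comm (s - X₁) X₁, hsum, hprod, hr1, hr2] at this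
    linear_combination this

variable [DecidableEq K] {E : Affine K}

lemma exists_five_torsion [IsAlgClosed K] (hΔ : E.Δ ≠ 0) :
    ∃ P : E.Point, P ≠ 0 ∧ (5 : ℤ) • P = 0 := by
  obtain ⟨X₁, X₂, hne, h12, h21⟩ := exists_pair (disc_ne_zero hΔ)
  obtain ⟨P, hP, rfl⟩ := exists_point hΔ X₁
  refine ⟨P, hP, ?_⟩
  have hf1 : ff (sA E) (sB E) (Xc P) ≠ 0 := by
    intro hf
    apply ff_ne_zero_of_gg (disc_ne_zero hΔ) hf
    rw [← h12, hf]; ring
  have hf2 : ff (sA E) (sB E) X₂ ≠ 0 := by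
    intro hf
    apply ff_ne_zero_of_gg (disc_ne_zero hΔ) hf
    rw [← h21, hf]; ring
  have h2 : P + P ≠ 0 := (ff_ne_zero_iff hP).1 hf1
  have hX2 : Xc (P + P) = X₂ := by
    have h4 : (4 * ff (sA E) (sB E) (Xc P)) ≠ 0 := mul_ne_zero (by norm_num) hf1
    apply mul_right_cancel₀ h4
    rw [dup_Xc hP h2, h12]
  rw [← hX2] at hf2 h21 hne
  have h4 : (P + P) + (P + P) ≠ 0 := (ff_ne_zero_iff h2).1 hf2
  have hX4 : Xc ((P + P) + (P + P)) = Xc P := by
    have h4' : (4 * ff (sA E) (sB E) (Xc (P + P))) ≠ 0 := mul_ne_zero (by norm_num) hf2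
    apply mul_right_cancel₀ h4'
    rw [dup_Xc h2 h4, h21]
  rcases (Xc_eq_iff h4 hP).1 hX4 with h | h
  · exfalso
    apply hne
    have h3 : P + P = -P := by
      have : P + P = ((P + P) + (P + P)) - P - P := by abel
      rw [this, h]; abel
    rw [h3, Xc_neg]
  · have : (5 : ℤ) • P = ((P + P) + (P + P)) + P := by abel
    rw [this, h]; simp

end Fermat.Agent.S51
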