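import Fermat.Agent.S51.Descent
import Fermat.Agent.S51.Five

set_option autoImplicit false

namespace Fermat.Agent.S51

/-- The modular equation: a rational "point of `X₀(15)`" has one of four `j`-invariants. -/
theorem modEq {A B X₀ s m : ℚ} (hD : s ^ 2 - 4 * m ≠ 0) (h1 : r1 A B s m = 0)
    (h2 : r2 A s m = 0) (h3 : psi3 A B X₀ = 0) :
    -16 * (4 * A ^ 3 + 27 * B ^ 2) = 0 ∨
    2 * (-48 * A) ^ 3 = -25 * (-16 * (4 * A ^ 3 + 27 * B ^ 2)) ∨
    8 * (-48 * A) ^ 3 = -25 * 241 ^ 3 * (-16 * (4 * A ^ 3 + 27 * B ^ 2)) ∨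
    2 ^ 15 * (-48 * A) ^ 3 = 5 * 211 ^ 3 * (-16 * (4 * A ^ 3 + 27 * B ^ 2)) ∨
    32 * (-48 * A) ^ 3 = -5 * 29 ^ 3 * (-16 * (4 * A ^ 3 + 27 * B ^ 2)) := by
  obtain ⟨D, hDdef⟩ : ∃ D : ℚ, D = s ^ 2 - 4 * m := ⟨_, rfl⟩
  rw [← hDdef] at hD
  obtain ⟨u, hu⟩ : ∃ u : ℚ, u * D = 4 * (A + s ^ 2 - m) := ⟨4 * (A + s ^ 2 - m) / D, by field_simp⟩
  obtain ⟨v, hv⟩ : ∃ v : ℚ, v * D = X₀ ^ 2 - s * X₀ + m := ⟨(X₀ ^ 2 - s * X₀ + m) / D, by field_simp⟩
  obtain ⟨k, hk⟩ : ∃ k : ℚ, k * D = 3 * s * (2 * X₀ - s) := ⟨3 * s * (2 * X₀ - s) / D, by field_simp⟩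
  unfold r1 at h1
  unfold r2 at h2
  unfold psi3 at h3
  have hm : m = (s ^ 2 - D) / 4 := by rw [hDdef]; ring
  have hA : A = (u * D - 3 * s ^ 2 - D) / 4 := by rw [hu, hDdef]; ring
  have hrel : 36 * s ^ 2 = D * (u ^ 2 + 4) := by
    apply mul_left_cancel₀ hD
    rw [hm, hA] at h2
    linear_combination (-16 : ℚ) * h2
  have hA' : A = -D * (u ^ 2 - 12 * u + 16) / 48 := by
    rw [hA]; linear_combination (-1 / 48 : ℚ) * hrel
  have hB' : B = s * D * (u ^ 2 - 18 * u + 76) / 144 := by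
    rw [hm, hA] at h1
    linear_combination (-1 / 4 : ℚ) * h1 + (s / 144) * hrel
  have F3 : -48 * A = D * (u ^ 2 - 12 * u + 16) := by rw [hA']; ring
  have F4 : -16 * (4 * A ^ 3 + 27 * B ^ 2) = D ^ 3 * (u - 11) := by
    rw [hA', hB']
    linear_combination (-16 * 27 / (144 ^ 2 * 36) * D ^ 2 * (u ^ 2 - 18 * u + 76) ^ 2) * hrel
  have F1 : k ^ 2 = (v + 1 / 4) * (u ^ 2 + 4) := by
    apply mul_left_cancel₀ (pow_ne_zero 2 hD)
    linear_combination (k * D + 3 * s * (2 * X₀ - s)) * hk - (D * (u ^ 2 + 4)) * hv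
      + (X₀ ^ 2 - s * X₀ + m + D / 4) * hrel - 36 * s ^ 2 * hm
  have F2 : (1 + v) * k + 3 * v ^ 2 + (1 + 3 * v) * u / 2 = 0 := by
    apply mul_left_cancel₀ (pow_ne_zero 2 hD)
    calc D ^ 2 * ((1 + v) * k + 3 * v ^ 2 + (1 + 3 * v) * u / 2)
        = (D + v * D) * (k * D) + 3 * (v * D) ^ 2 + (D + 3 * (v * D)) * (u * D) / 2 := by ring
      _ = D ^ 2 * 0 := by
        rw [hv, hk, hu, hDdef]
        linear_combination h3 + 3 * X₀ * h1 + h2
  have Q : v ^ 3 * u ^ 2 - 3 * v ^ 2 * (1 + 3 * v) * u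
      + (-9 * v ^ 4 + 4 * v ^ 3 + 9 * v ^ 2 + 6 * v + 1) = 0 := by
    linear_combination (-(1 + v) ^ 2) * F1 + ((1 + v) * k - (3 * v ^ 2 + (1 + 3 * v) * u / 2)) * F2
  have hv0 : v ≠ 0 := by
    rintro rfl
    norm_num at Q
  have hv1 : v + 1 ≠ 0 := by
    intro h
    have hv' : v = -1 := by linarith
    rw [hv'] at F1 F2
    have hu3 : u = 3 := by linarith
    rw [hu3] at F1
    nlinarith [sq_nonneg k]
  obtain ⟨T, hT⟩ : ∃ T : ℚ, T * (v + 1) = 2 * v ^ 2 * u - 3 * v * (1 + 3 * v) :=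
    ⟨(2 * v ^ 2 * u - 3 * v * (1 + 3 * v)) / (v + 1), by field_simp⟩
  have hT2 : T ^ 2 = v * (9 * v - 4) * (4 * v + 1) := by
    apply mul_left_cancel₀ (pow_ne_zero 2 hv1)
    apply mul_left_cancel₀ hv0
    linear_combination v * (T * (v + 1) + (2 * v ^ 2 * u - 3 * v * (1 + 3 * v))) * hT + 4 * v ^ 2 * Q
  -- the possible values of `(v, u)`
  have key : u = 11 ∨ u = 1 ∨ u = -29 ∨ u = 63 / 8 ∨ u = -3 / 2 := by
    by_cases h9 : 9 * v - 4 = 0
    · have hv' : v = 4 / 9 := by linarith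
      rw [hv'] at Q
      have : (u - 63 / 8) ^ 2 = 0 := by linear_combination (729 / 64 : ℚ) * Q
      have := pow_eq_zero_iff (two_ne_zero) |>.1 this
      right; right; right; left; linarith
    · obtain ⟨w, hw⟩ : ∃ w : ℚ, w = 9 * v - 4 := ⟨_, rfl⟩
      have hw0 : w ≠ 0 := by rw [hw]; exact h9
      obtain ⟨x, hx⟩ : ∃ x : ℚ, x * w = 81 * v * (4 * v + 1) :=
        ⟨81 * v * (4 * v + 1) / w, by field_simp⟩
      obtain ⟨Z, hZ⟩ : ∃ Z : ℚ, Z * w ^ 2 = 324 * (9 * v + 1) * (v - 1) * T :=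
        ⟨324 * (9 * v + 1) * (v - 1) * T / w ^ 2, by field_simp⟩
      have hx1 : (x - 1) * w = 4 * (9 * v + 1) ^ 2 := by rw [sub_mul, hx, hw]; ring
      have hx81 : (x - 81) * w = 324 * (v - 1) ^ 2 := by rw [sub_mul, hx, hw]; ring
      have hsq : IsSquare (x * (x - 1) * (x - 81)) := by
        refine ⟨Z, ?_⟩
        apply mul_left_cancel₀ (pow_ne_zero 4 hw0)
        calc w ^ 4 * (x * (x - 1) * (x - 81))
            = w * ((x * w) * ((x - 1) * w) * ((x - 81) * w)) := by ring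
          _ = (324 * (9 * v + 1) * (v - 1)) ^ 2 * T ^ 2 := by
              rw [hx, hx1, hx81, hT2, hw]; ring
          _ = (Z * w ^ 2) ^ 2 := by rw [hZ]; ring
          _ = w ^ 4 * (Z * Z) := by ring
      rcases descent _ hsq with h | h | h
      · have h' : 81 * v * (4 * v + 1) = 0 := by
          rw [← hx, h]; ring
        have h4 : 4 * v + 1 = 0 := by
          rcases mul_eq_zero.1 h' with h'' | h''
          · exact absurd (by linarith) hv0
          · exact h''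
        have hv' : v = -1 / 4 := by linarith
        rw [hv'] at Q
        have : (u + 3 / 2) ^ 2 = 0 := by linear_combination (-64 : ℚ) * Q
        have := pow_eq_zero_iff (two_ne_zero) |>.1 this
        right; right; right; right; linarith
      · have h' : (9 * v + 1) ^ 2 = 0 := by
          rw [h] at hx1
          linear_combination (-1 / 4 : ℚ) * hx1
        have := pow_eq_zero_iff (two_ne_zero) |>.1 h'
        have hv' : v = -1 / 9 := by linarith
        rw [hv'] at Q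
        have : (u - 11) * (u + 29) = 0 := by linear_combination (-729 : ℚ) * Q
        rcases mul_eq_zero.1 this with h'' | h''
        · left; linarith
        · right; right; left; linarith
      · have h' : (v - 1) ^ 2 = 0 := by
          rw [h] at hx81
          linear_combination (-1 / 324 : ℚ) * hx81
        have := pow_eq_zero_iff (two_ne_zero) |>.1 h'
        have hv' : v = 1 := by linarith
        rw [hv'] at Q
        have : (u - 11) * (u - 1) = 0 := by linear_combination Q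
        rcases mul_eq_zero.1 this with h'' | h''
        · left; linarith
        · right; left; linarith
  rw [F3, F4]
  rcases key with rfl | rfl | rfl | rfl | rfl
  · left; ring
  · right; left; ring
  · right; right; left; ring
  · right; right; right; left; ring
  · right; right; right; right; ring

end Fermat.Agent.S51
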