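import Fermat.Statements.S51
import Fermat.Agent.S51.ModEq
import Fermat.Agent.S51.Count

set_option autoImplicit false
set_option linter.unusedSectionVars false

namespace Fermat.Agent.S51

open WeierstrassCurve WeierstrassCurve.Affine WeierstrassCurve.Affine.Point

/-- `ℚ̄` -/
abbrev Qb := AlgebraicClosure ℚ

theorem isAlgClosure_Qb : IsAlgClosure ℚ Qb := by
  have h : @IsAlgClosure ℚ (AlgebraicClosure ℚ) _ _ (AlgebraicClosure.instAlgebra ℚ) _ :=
    inferInstance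
  convert h
  exact Subsingleton.elim _ _

theorem isGalois_Qb : IsGalois ℚ Qb :=
  have := isAlgClosure_Qb
  inferInstance

theorem exists_rat_of_fixed (x : Qb) (h : ∀ σ : Qb ≃ₐ[ℚ] Qb, σ x = x) :
    ∃ q : ℚ, algebraMap ℚ Qb q = x := by
  have := isGalois_Qb
  exact (InfiniteGalois.mem_range_algebraMap_iff_fixed x).2 h

variable (W : WeierstrassCurve ℤ)

/-- the curve over `ℚ̄` -/
noncomputable abbrev EK : Affine Qb := ((W.map (Int.castRingHom ℚ))⁄Qb)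

noncomputable def Aq : ℚ := -(W.c₄ : ℚ) / 48
noncomputable def Bq : ℚ := -(W.c₆ : ℚ) / 864

lemma EK_def : EK W = (W.map (Int.castRingHom ℚ)).map (algebraMap ℚ Qb) := rfl

lemma c₄_EK : (EK W).c₄ = algebraMap ℚ Qb (W.c₄ : ℚ) := by
  rw [EK_def, WeierstrassCurve.map_c₄, WeierstrassCurve.map_c₄]; rfl

lemma c₆_EK : (EK W).c₆ = algebraMap ℚ Qb (W.c₆ : ℚ) := by
  rw [EK_def, WeierstrassCurve.map_c₆, WeierstrassCurve.map_c₆]; rfl

lemma b₂_EK : (EK W).b₂ = algebraMap ℚ Qb (W.b₂ : ℚ) := by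
  rw [EK_def, WeierstrassCurve.map_b₂, WeierstrassCurve.map_b₂]; rfl

lemma Δ_EK : (EK W).Δ = algebraMap ℚ Qb (W.Δ : ℚ) := by
  rw [EK_def, WeierstrassCurve.map_Δ, WeierstrassCurve.map_Δ]; rfl

lemma sA_EK : sA (EK W) = algebraMap ℚ Qb (Aq W) := by
  unfold sA Aq
  rw [c₄_EK]
  simp

lemma sB_EK : sB (EK W) = algebraMap ℚ Qb (Bq W) := by
  unfold sB Bq
  rw [c₆_EK]
  simp

lemma Δ_EK_ne_zero (hΔ : W.Δ ≠ 0) : (EK W).Δ ≠ 0 := by
  rw [Δ_EK]
  simpa using hΔ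

lemma disc_q : -16 * (4 * (Aq W) ^ 3 + 27 * (Bq W) ^ 2) = (W.Δ : ℚ) := by
  have h := W.c_relation
  have h' : (1728 : ℚ) * (W.Δ : ℚ) = (W.c₄ : ℚ) ^ 3 - (W.c₆ : ℚ) ^ 2 := by exact_mod_cast h
  unfold Aq Bq
  field_simp
  linear_combination (-47775744 : ℚ) * h'

variable {W}

lemma Xc_smul (σ : Qb ≃ₐ[ℚ] Qb) (P : (EK W).Point) : Xc (σ • P) = σ (Xc P) := by
  rcases P with _ | ⟨x, y, h⟩
  · change (0 : Qb) = σ 0
    simp
  · rw [algEquiv_smul_def, Point.map_some, Xc_some, Xc_some]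
    rw [b₂_EK]
    have h12 : σ (12 : Qb) = 12 := map_ofNat σ 12
    simp [h12]


variable (W) in
/-- the `n`-torsion module -/
noncomputable abbrev Tor (n : ℕ) := Submodule.torsionBy ℤ (EK W).Point n

lemma coe_zmod_smul (n : ℕ) [NeZero n] (c : ZMod n) (x : Tor W n) :
    ((c • x : Tor W n) : (EK W).Point) = c.val • (x : (EK W).Point) := by
  conv_lhs => rw [← ZMod.natCast_zmod_val c, Nat.cast_smul_eq_nsmul]
  rfl

lemma coe_galois_smul (n : ℕ) (σ : Qb ≃ₐ[ℚ] Qb) (x : Tor W n) :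
    ((σ • x : Tor W n) : (EK W).Point) = σ • (x : (EK W).Point) := rfl

lemma galois_smul_ne_zero (σ : Qb ≃ₐ[ℚ] Qb) {P : (EK W).Point} (hP : P ≠ 0) : σ • P ≠ 0 := by
  intro h
  apply hP
  have : σ⁻¹ • (σ • P) = σ⁻¹ • (0 : (EK W).Point) := by rw [h]
  rw [inv_smul_smul] at this
  rw [this]
  exact smul_zero (A := (EK W).Point) σ⁻¹

lemma line3 (N : Submodule (ZMod 3) (Tor W 3)) (hst : IsGaloisStable ℚ N) (h0 : N ≠ ⊥)
    (h1 : N ≠ ⊤) : ∃ X₀ : ℚ, psi3 (Aq W) (Bq W) X₀ = 0 := by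
  obtain ⟨hfin, hcard⟩ := card_three_torsion (E := EK W)
  have := hfin
  obtain ⟨v, hvN, hv0, hgen⟩ := exists_generator hcard N h0 h1
  have hP0 : (v : (EK W).Point) ≠ 0 := fun h => hv0 (Subtype.ext h)
  have h3 : (3 : ℤ) • (v : (EK W).Point) = 0 := by
    have := v.2
    rw [Submodule.mem_torsionBy_iff] at this
    exact this
  have hfix : ∀ σ : Qb ≃ₐ[ℚ] Qb, σ (Xc (v : (EK W).Point)) = Xc (v : (EK W).Point) := by
    intro σ
    obtain ⟨c, hc⟩ := hgen (σ • v) (hst σ v hvN)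
    have hσ : σ • (v : (EK W).Point) = c.val • (v : (EK W).Point) := by
      rw [← coe_zmod_smul, ← hc, coe_galois_smul]
    have hne := galois_smul_ne_zero σ hP0
    rw [← Xc_smul, hσ]
    rw [hσ] at hne
    have hlt := ZMod.val_lt c
    generalize c.val = k at hlt hne ⊢
    interval_cases k
    · simp at hne
    · rw [one_nsmul]
    · have : (2 : ℕ) • (v : (EK W).Point) = -(v : (EK W).Point) := by
        rw [eq_neg_iff_add_eq_zero, ← h3]; abel
      rw [this, Xc_neg]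
  obtain ⟨q, hq⟩ := exists_rat_of_fixed _ hfix
  refine ⟨q, ?_⟩
  apply (algebraMap ℚ Qb).injective
  have := psi3_of_three_torsion hP0 h3
  rw [sA_EK, sB_EK, ← hq] at this
  simpa [psi3] using this


lemma line5 (N : Submodule (ZMod 5) (Tor W 5)) (hst : IsGaloisStable ℚ N) (h0 : N ≠ ⊥)
    (h1 : N ≠ ⊤) : ∃ s m : ℚ, s ^ 2 - 4 * m ≠ 0 ∧ r1 (Aq W) (Bq W) s m = 0 ∧
      r2 (Aq W) s m = 0 := by
  have : Fact (Nat.Prime 5) := ⟨by norm_num⟩
  obtain ⟨hfin, hcard⟩ := card_five_torsion (E := EK W)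
  have := hfin
  obtain ⟨v, hvN, hv0, hgen⟩ := exists_generator hcard N h0 h1
  obtain ⟨P, hP⟩ : ∃ P : (EK W).Point, P = (v : (EK W).Point) := ⟨_, rfl⟩
  have hP0 : P ≠ 0 := fun h => hv0 (Subtype.ext (hP ▸ h))
  have h5 : (5 : ℤ) • P = 0 := by
    have := v.2
    rw [Submodule.mem_torsionBy_iff] at this
    rw [hP]
    exact this
  obtain ⟨h2, h12, h21, hne, -⟩ := rel_of_five_torsion hP0 h5
  have hperm : ∀ σ : Qb ≃ₐ[ℚ] Qb, (σ (Xc P) = Xc P ∧ σ (Xc (P + P)) = Xc (P + P)) ∨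
      (σ (Xc P) = Xc (P + P) ∧ σ (Xc (P + P)) = Xc P) := by
    intro σ
    obtain ⟨c, hc⟩ := hgen (σ • v) (hst σ v hvN)
    have hσ : σ • P = c.val • P := by
      rw [hP, ← coe_zmod_smul, ← hc, coe_galois_smul]
    have hne := galois_smul_ne_zero σ hP0
    have hσ2 : σ • (P + P) = c.val • P + c.val • P := by
      have e : σ • (P + P) = σ • P + σ • P := (Point.map σ.toAlgHom).map_add P P
      rw [e, hσ]
    rw [← Xc_smul, ← Xc_smul, hσ, hσ2]
    rw [hσ] at hne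
    have hlt := ZMod.val_lt c
    generalize c.val = k at hlt hne ⊢
    interval_cases k
    · simp at hne
    · left; rw [one_nsmul]; exact ⟨rfl, rfl⟩
    · right
      have e1 : (2 : ℕ) • P = P + P := by abel
      have e2 : (P + P) + (P + P) = -P := by
        rw [eq_neg_iff_add_eq_zero, ← h5]; abel
      rw [e1, e2, Xc_neg]; exact ⟨rfl, rfl⟩
    · right
      have e1 : (3 : ℕ) • P = -(P + P) := by
        rw [eq_neg_iff_add_eq_zero, ← h5]; abel
      have e2 : -(P + P) + -(P + P) = P := by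
        have : -(P + P) + -(P + P) = P - (5 : ℤ) • P := by abel
        rw [this, h5, sub_zero]
      rw [e1, e2, Xc_neg]; exact ⟨rfl, rfl⟩
    · left
      have e1 : (4 : ℕ) • P = -P := by
        rw [eq_neg_iff_add_eq_zero, ← h5]; abel
      have e2 : -P + -P = -(P + P) := by abel
      rw [e1, e2, Xc_neg, Xc_neg]; exact ⟨rfl, rfl⟩
  obtain ⟨s, hs⟩ := exists_rat_of_fixed (Xc P + Xc (P + P)) (by
    intro σ
    rcases hperm σ with ⟨e1, e2⟩ | ⟨e1, e2⟩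
    · rw [map_add, e1, e2]
    · rw [map_add, e1, e2, add_comm])
  obtain ⟨m, hm⟩ := exists_rat_of_fixed (Xc P * Xc (P + P)) (by
    intro σ
    rcases hperm σ with ⟨e1, e2⟩ | ⟨e1, e2⟩
    · rw [map_mul, e1, e2]
    · rw [map_mul, e1, e2, mul_comm])
  obtain ⟨hr1, hr2⟩ := r1_r2_of_rel h12 h21 hne
  rw [sA_EK, sB_EK, ← hs, ← hm] at hr1
  rw [sA_EK, ← hs, ← hm] at hr2
  refine ⟨s, m, ?_, ?_, ?_⟩
  · intro h
    have h' : algebraMap ℚ Qb (s ^ 2 - 4 * m) = 0 := by rw [h, _root_.map_zero]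
    have h4 : algebraMap ℚ Qb 4 = 4 := map_ofNat _ 4
    rw [map_sub, map_pow, map_mul, hs, hm, h4] at h'
    have : (Xc P - Xc (P + P)) ^ 2 = 0 := by linear_combination h'
    exact hne (sub_eq_zero.1 (pow_eq_zero_iff (two_ne_zero) |>.1 this))
  · apply (algebraMap ℚ Qb).injective
    simpa [r1] using hr1
  · apply (algebraMap ℚ Qb).injective
    simpa [r2] using hr2

end Fermat.Agent.S51
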