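import Mathlib

set_option autoImplicit false
set_option linter.unusedSectionVars false

namespace Fermat.Agent.S51

open WeierstrassCurve WeierstrassCurve.Affine

variable {K : Type*} [Field K]

/-- the cubic `X^3 + A X + B` -/
def ff (A B X : K) : K := X ^ 3 + A * X + B
/-- numerator of the duplication map -/
def gg (A B X : K) : K := X ^ 4 - 2 * A * X ^ 2 - 8 * B * X + A ^ 2

/-- short Weierstrass invariants -/
noncomputable def sA (E : Affine K) : K := -E.c₄ / 48
noncomputable def sB (E : Affine K) : K := -E.c₆ / 864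

lemma bezout_ff_gg (A B X : K) :
    (12 * X ^ 2 + 16 * A) * gg A B X - (3 * X ^ 3 - 5 * A * X - 27 * B) * (4 * ff A B X)
      = 4 * (4 * A ^ 3 + 27 * B ^ 2) := by
  unfold ff gg; ring

variable [CharZero K] (E : Affine K)

lemma disc_short : -16 * (4 * (sA E) ^ 3 + 27 * (sB E) ^ 2) = E.Δ := by
  have h := E.c_relation
  unfold sA sB
  field_simp
  linear_combination (-47775744 : K) * h
  
lemma four_ff {x y : K} (h : E.Equation x y) :
    4 * ff (sA E) (sB E) (x + E.b₂ / 12) = (y - E.negY x y) ^ 2 := by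
  rw [equation_iff] at h
  unfold ff sA sB negY c₄ c₆ b₂ b₄ b₆
  field_simp
  linear_combination (-286654464 : K) * h

lemma dup_formula [DecidableEq K] {x y : K} (h : E.Equation x y) (hy : y ≠ E.negY x y) :
    (E.addX x x (E.slope x x y y) + E.b₂ / 12) * (4 * ff (sA E) (sB E) (x + E.b₂ / 12))
      = gg (sA E) (sB E) (x + E.b₂ / 12) := by
  rw [four_ff E h, slope_of_Y_ne rfl hy]
  have hy' : y - E.negY x y ≠ 0 := sub_ne_zero.2 hy
  rw [equation_iff] at h
  unfold addX
  field_simp
  unfold gg sA sB negY c₄ c₆ b₂ b₄ b₆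
  field_simp
  linear_combination (-27518828544 * (12 * x + 4 * E.a₂ + E.a₁ ^ 2) : K) * h


variable {E}

/-- shifted `x`-coordinate (junk value `0` at the origin). -/
noncomputable def Xc : E.Point → K
  | .zero => 0
  | .some x _ _ => x + E.b₂ / 12

lemma Xc_some {x y : K} (h : E.Nonsingular x y) : Xc (Point.some x y h) = x + E.b₂ / 12 := rfl

lemma Xc_neg (P : E.Point) : Xc (-P) = Xc P := by
  cases P <;> rfl

lemma Xc_eq_iff {P Q : E.Point} (hP : P ≠ 0) (hQ : Q ≠ 0) :
    Xc P = Xc Q ↔ P = Q ∨ P = -Q := by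
  rcases P with _ | ⟨x₁, y₁, h₁⟩
  · exact absurd rfl hP
  rcases Q with _ | ⟨x₂, y₂, h₂⟩
  · exact absurd rfl hQ
  rw [Xc_some, Xc_some, add_left_inj]
  exact Point.X_eq_iff

variable [DecidableEq K]

lemma ff_ne_zero_iff {P : E.Point} (hP : P ≠ 0) :
    ff (sA E) (sB E) (Xc P) ≠ 0 ↔ P + P ≠ 0 := by
  rcases P with _ | ⟨x, y, h⟩
  · exact absurd rfl hP
  rw [Xc_some]
  have h4 := four_ff E h.1
  constructor
  · intro hf h0
    by_cases hy : y = E.negY x y
    · apply hf
      have : (4 : K) ≠ 0 := by norm_num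
      have h5 : 4 * ff (sA E) (sB E) (x + E.b₂ / 12) = 0 := by
        rw [h4, sub_eq_zero.2 hy]; ring
      exact (mul_eq_zero.1 h5).resolve_left this
    · rw [Point.add_self_of_Y_ne hy] at h0
      exact Point.some_ne_zero _ h0
  · intro h0 hf
    apply h0
    apply Point.add_self_of_Y_eq
    rw [hf, mul_zero] at h4
    exact sub_eq_zero.1 (pow_eq_zero_iff (two_ne_zero)|>.1 h4.symm)

lemma dup_Xc {P : E.Point} (hP : P ≠ 0) (h2 : P + P ≠ 0) :
    Xc (P + P) * (4 * ff (sA E) (sB E) (Xc P)) = gg (sA E) (sB E) (Xc P) := by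
  rcases P with _ | ⟨x, y, h⟩
  · exact absurd rfl hP
  by_cases hy : y = E.negY x y
  · exact absurd (Point.add_self_of_Y_eq hy) h2
  · rw [Point.add_self_of_Y_ne hy, Xc_some, Xc_some]
    exact dup_formula E h.1 hy

lemma exists_point [IsAlgClosed K] (hΔ : E.Δ ≠ 0) (X : K) : ∃ P : E.Point, P ≠ 0 ∧ Xc P = X := by
  set x := X - E.b₂ / 12 with hx
  obtain ⟨y, hy⟩ := IsAlgClosed.exists_root
    (Polynomial.X ^ 2 + Polynomial.C (E.a₁ * x + E.a₃) * Polynomial.X
      - Polynomial.C (x ^ 3 + E.a₂ * x ^ 2 + E.a₄ * x + E.a₆) : Polynomial K) (by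
      intro h
      have : (Polynomial.X ^ 2 + Polynomial.C (E.a₁ * x + E.a₃) * Polynomial.X
      - Polynomial.C (x ^ 3 + E.a₂ * x ^ 2 + E.a₄ * x + E.a₆) : Polynomial K).degree = 2 := by
        compute_degree!
      rw [this] at h
      exact absurd h (by decide))
  have heq : E.Equation x y := by
    rw [equation_iff]
    simp only [Polynomial.IsRoot, Polynomial.eval_sub, Polynomial.eval_add, Polynomial.eval_pow,
      Polynomial.eval_X, Polynomial.eval_mul, Polynomial.eval_C] at hy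
    linear_combination hy
  refine ⟨Point.some x y ((equation_iff_nonsingular_of_Δ_ne_zero hΔ).1 heq), Point.some_ne_zero _, ?_⟩
  rw [Xc_some, hx]; ring

end Fermat.Agent.S51
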