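import Mathlib

set_option autoImplicit false

namespace Fermat.Agent.S51

/-- If `u * v` is a nonzero square, then `u = ε g s²`, `v = ε g t²` with `g = gcd u v`. -/
theorem descent_lemmaG (u v N : ℤ) (hN : N ≠ 0) (h : u * v = N ^ 2) :
    ∃ ε s t : ℤ, (ε = 1 ∨ ε = -1) ∧ IsCoprime s t ∧ u = ε * (Int.gcd u v : ℤ) * s ^ 2 ∧
      v = ε * (Int.gcd u v : ℤ) * t ^ 2 := by
  have hu : u ≠ 0 := by
    rintro rfl
    apply hN
    have : N ^ 2 = 0 := by rw [← h]; ring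
    exact pow_eq_zero_iff (two_ne_zero) |>.1 this
  have hgpos : 0 < Int.gcd u v := Int.gcd_pos_of_ne_zero_left v hu
  obtain ⟨u', v', hg', hu', hv'⟩ := Int.exists_gcd_one hgpos
  set g : ℤ := (Int.gcd u v : ℤ) with hg
  have hg0 : g ≠ 0 := by rw [hg]; exact_mod_cast hgpos.ne'
  have hgN : g ∣ N := by
    rw [← Int.pow_dvd_pow_iff (two_ne_zero), ← h]
    refine ⟨u' * v', ?_⟩
    conv_lhs => rw [hu', hv']
    ring
  obtain ⟨N', rfl⟩ := hgN
  have hN' : N' ≠ 0 := by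
    rintro rfl
    exact hN (by ring)
  have h' : u' * v' = N' ^ 2 := by
    have : g ^ 2 * (u' * v') = g ^ 2 * N' ^ 2 := by
      have e : u * v = g ^ 2 * (u' * v') := by
        conv_lhs => rw [hu', hv']
        ring
      rw [← e, h]; ring
    exact mul_left_cancel₀ (pow_ne_zero 2 hg0) this
  have hpos : 0 < u' * v' := by
    rw [h']; positivity
  have hcop : IsCoprime u' v' := Int.isCoprime_iff_gcd_eq_one.2 hg'
  obtain ⟨s, hs⟩ := Int.sq_of_gcd_eq_one hg' h'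
  obtain ⟨t, ht⟩ := Int.sq_of_gcd_eq_one (by rw [Int.gcd_comm]; exact hg')
    (by rw [mul_comm]; exact h')
  rcases hs with hs | hs <;> rcases ht with ht | ht
  · refine ⟨1, s, t, Or.inl rfl, ?_, by rw [hu', hs]; ring, by rw [hv', ht]; ring⟩
    rw [hs, ht] at hcop
    exact (IsCoprime.pow_iff (by norm_num) (by norm_num)).1 hcop
  · exfalso
    rw [hs, ht] at hpos
    nlinarith [sq_nonneg (s * t)]
  · exfalso
    rw [hs, ht] at hpos
    nlinarith [sq_nonneg (s * t)]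
  · refine ⟨-1, s, t, Or.inr rfl, ?_, by rw [hu', hs]; ring, by rw [hv', ht]; ring⟩
    rw [hs, ht] at hcop
    have hcop' : IsCoprime (s ^ 2) (t ^ 2) := by
      have := hcop.neg_left.neg_right
      simpa using this
    exact (IsCoprime.pow_iff (m := 2) (n := 2) (by norm_num) (by norm_num)).1 hcop'

theorem descent_mod4 : ∀ β s t : ZMod 4, (β = 1 ∨ β = 3) →
    (2 * β ^ 2 ≠ s ^ 2 - t ^ 2 ∧ 2 * β ^ 2 ≠ -(s ^ 2 - t ^ 2)) := by
  decide

theorem descent_mod3 : ∀ b s t : ZMod 3, b ≠ 0 → ¬ (s = 0 ∧ t = 0) → -(b ^ 2) * s ^ 2 ≠ t ^ 2 := by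
  decide

theorem descent_sq_mod8 (n : ℤ) (h : n % 2 = 1) : n ^ 2 % 8 = 1 := by
  have h8 : n % 8 = 1 ∨ n % 8 = 3 ∨ n % 8 = 5 ∨ n % 8 = 7 := by omega
  rw [pow_two, Int.mul_emod]
  rcases h8 with h8 | h8 | h8 | h8 <;> rw [h8] <;> norm_num

theorem descent_cast_odd (s : ℤ) (h : s % 2 = 1) : (s : ZMod 4) = 1 ∨ (s : ZMod 4) = 3 := by
  have h4 : s % 4 = 1 ∨ s % 4 = 3 := by omega
  rcases h4 with h4 | h4
  · left
    have : ((s : ℤ) : ZMod 4) = ((1 : ℤ) : ZMod 4) := by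
      rw [ZMod.intCast_eq_intCast_iff_dvd_sub]; push_cast; omega
    simpa using this
  · right
    have : ((s : ℤ) : ZMod 4) = ((3 : ℤ) : ZMod 4) := by
      rw [ZMod.intCast_eq_intCast_iff_dvd_sub]; push_cast; omega
    simpa using this

/-- first half of Lemma A: `a`, `b` and `(a-b)(a-81b)` are squares. -/
theorem descent_lemmaA1 (a b N : ℤ) (hab : IsCoprime a b) (hb : 0 < b) (hN : N ≠ 0)
    (h : a * b * (a - b) * (a - 81 * b) = N ^ 2) :
    ∃ α β w : ℤ, a = α ^ 2 ∧ b = β ^ 2 ∧ w ≠ 0 ∧ (a - b) * (a - 81 * b) = w ^ 2 := by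
  -- `b` is coprime to the rest
  have hba : IsCoprime b a := hab.symm
  have hb1 : IsCoprime b (a - b) := by
    have := hba.add_mul_left_right (-1)
    simpa [sub_eq_add_neg] using this
  have hb2 : IsCoprime b (a - 81 * b) := by
    have := hba.add_mul_left_right (-81)
    have e : a + b * -81 = a - 81 * b := by ring
    rwa [e] at this
  have hbM : IsCoprime b (a * ((a - b) * (a - 81 * b))) := hba.mul_right (hb1.mul_right hb2)
  have hM : b * (a * ((a - b) * (a - 81 * b))) = N ^ 2 := by rw [← h]; ring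
  have hN2 : 0 < N ^ 2 := by positivity
  have hMpos : 0 < a * ((a - b) * (a - 81 * b)) := by
    by_contra hcon
    push Not at hcon
    have : b * (a * ((a - b) * (a - 81 * b))) ≤ 0 := mul_nonpos_of_nonneg_of_nonpos hb.le hcon
    omega
  obtain ⟨β, hβ⟩ := Int.sq_of_isCoprime hbM hM
  have hβ' : b = β ^ 2 := by
    rcases hβ with hβ | hβ
    · exact hβ
    · exfalso; nlinarith [sq_nonneg β]
  obtain ⟨t, ht⟩ := Int.sq_of_isCoprime hbM.symm (by rw [mul_comm]; exact hM)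
  have ht' : a * ((a - b) * (a - 81 * b)) = t ^ 2 := by
    rcases ht with ht | ht
    · exact ht
    · exfalso; nlinarith [sq_nonneg t]
  have ht0 : t ≠ 0 := by
    rintro rfl
    rw [ht'] at hMpos
    norm_num at hMpos
  -- sign of `a`
  have hapos : 0 < a := by
    by_contra hcon
    push Not at hcon
    have h1 : a - b < 0 := by omega
    have h2 : a - 81 * b < 0 := by omega
    have h3 : 0 < (a - b) * (a - 81 * b) := mul_pos_of_neg_of_neg h1 h2
    have : a * ((a - b) * (a - 81 * b)) ≤ 0 := mul_nonpos_of_nonpos_of_nonneg hcon h3.le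
    omega
  obtain ⟨ε, s₁, t₁, hε, hst, hu, hv⟩ := descent_lemmaG a ((a - b) * (a - 81 * b)) t ht0 ht'
  set g : ℕ := Int.gcd a ((a - b) * (a - 81 * b)) with hg
  have hga : (g : ℤ) ∣ a := Int.gcd_dvd_left ..
  have hgv : (g : ℤ) ∣ (a - b) * (a - 81 * b) := Int.gcd_dvd_right ..
  have hgb : IsCoprime (g : ℤ) b := IsCoprime.of_isCoprime_of_dvd_left hab hga
  have hg81 : (g : ℤ) ∣ 81 := by
    have h1 : (g : ℤ) ∣ 81 * b ^ 2 := by
      have e : 81 * b ^ 2 = (a - b) * (a - 81 * b) - a * (a - 82 * b) := by ring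
      rw [e]
      exact dvd_sub hgv (Dvd.dvd.mul_right hga _)
    exact (hgb.pow_right (n := 2)).dvd_of_dvd_mul_right h1
  have hg81' : g ∣ 81 := by exact_mod_cast hg81
  have hgmem : g ∈ Nat.divisors 81 := Nat.mem_divisors.2 ⟨hg81', by norm_num⟩
  have hdiv : Nat.divisors 81 = {1, 3, 9, 27, 81} := by decide
  rw [hdiv] at hgmem
  have hgpos : (0 : ℤ) < g := by
    have : g ≠ 0 := by
      intro h0
      rw [h0] at hg81'
      norm_num at hg81'
    positivity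
  have hε1 : ε = 1 := by
    rcases hε with hε | hε
    · exact hε
    · exfalso
      rw [hε] at hu
      nlinarith [sq_nonneg s₁, mul_nonneg hgpos.le (sq_nonneg s₁)]
  subst hε1
  have h3β : (3 : ℤ) ∣ a → (β : ZMod 3) ≠ 0 := by
    intro h3a h0
    have h3 : (3 : ℤ) ∣ β := (ZMod.intCast_zmod_eq_zero_iff_dvd β 3).1 h0
    have h3b : (3 : ℤ) ∣ b := by rw [hβ']; exact Dvd.dvd.pow h3 (by norm_num)
    have := hab.isUnit_of_dvd' h3a h3b
    norm_num [Int.isUnit_iff] at this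
  have hst3 : ¬ ((s₁ : ZMod 3) = 0 ∧ (t₁ : ZMod 3) = 0) := by
    rintro ⟨h1, h2⟩
    have h1' : (3 : ℤ) ∣ s₁ := (ZMod.intCast_zmod_eq_zero_iff_dvd s₁ 3).1 h1
    have h2' : (3 : ℤ) ∣ t₁ := (ZMod.intCast_zmod_eq_zero_iff_dvd t₁ 3).1 h2
    have := hst.isUnit_of_dvd' h1' h2'
    norm_num [Int.isUnit_iff] at this
  have h30 : (3 : ZMod 3) = 0 := by decide
  have h270 : (27 : ZMod 3) = 0 := by decide
  simp only [Finset.mem_insert, Finset.mem_singleton] at hgmem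
  rcases hgmem with hg1 | hg1 | hg1 | hg1 | hg1
  · rw [hg1] at hu hv
    refine ⟨s₁, β, t₁, by rw [hu]; push_cast; ring, hβ', ?_, by rw [hv]; push_cast; ring⟩
    rintro rfl
    rw [hv] at ht'
    apply ht0
    have : t ^ 2 = 0 := by rw [← ht']; ring
    exact pow_eq_zero_iff (two_ne_zero) |>.1 this
  · exfalso
    rw [hg1] at hu hv
    push_cast at hu hv
    have key : (a - b) * (s₁ ^ 2 - 27 * b) = t₁ ^ 2 := by
      have e : (a - b) * (a - 81 * b) = 3 * ((a - b) * (s₁ ^ 2 - 27 * b)) := by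
        conv_lhs => rw [show a - 81 * b = 3 * (s₁ ^ 2 - 27 * b) by rw [hu]; ring]
        ring
      rw [e] at hv
      linarith
    have ha3 : (3 : ℤ) ∣ a := ⟨s₁ ^ 2, by linarith⟩
    have ha0 : (a : ZMod 3) = 0 := (ZMod.intCast_zmod_eq_zero_iff_dvd a 3).2 ha3
    have hz := congrArg (Int.cast : ℤ → ZMod 3) key
    push_cast at hz
    rw [ha0, h270, hβ'] at hz
    push_cast at hz
    apply descent_mod3 (β : ZMod 3) s₁ t₁ (h3β ha3) hst3
    rw [← hz]; ring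
  · rw [hg1] at hu hv
    refine ⟨3 * s₁, β, 3 * t₁, by rw [hu]; push_cast; ring, hβ', ?_, by rw [hv]; push_cast; ring⟩
    intro h0
    have ht10 : t₁ = 0 := by omega
    rw [ht10] at hv
    rw [hv] at ht'
    apply ht0
    have : t ^ 2 = 0 := by rw [← ht']; ring
    exact pow_eq_zero_iff (two_ne_zero) |>.1 this
  · exfalso
    rw [hg1] at hu hv
    push_cast at hu hv
    have key : (a - b) * (s₁ ^ 2 - 3 * b) = t₁ ^ 2 := by
      have e : (a - b) * (a - 81 * b) = 27 * ((a - b) * (s₁ ^ 2 - 3 * b)) := by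
        conv_lhs => rw [show a - 81 * b = 27 * (s₁ ^ 2 - 3 * b) by rw [hu]; ring]
        ring
      rw [e] at hv
      linarith
    have ha3 : (3 : ℤ) ∣ a := ⟨9 * s₁ ^ 2, by linarith⟩
    have ha0 : (a : ZMod 3) = 0 := (ZMod.intCast_zmod_eq_zero_iff_dvd a 3).2 ha3
    have hz := congrArg (Int.cast : ℤ → ZMod 3) key
    push_cast at hz
    rw [ha0, h30, hβ'] at hz
    push_cast at hz
    apply descent_mod3 (β : ZMod 3) s₁ t₁ (h3β ha3) hst3
    rw [← hz]; ring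
  · rw [hg1] at hu hv
    refine ⟨9 * s₁, β, 9 * t₁, by rw [hu]; push_cast; ring, hβ', ?_, by rw [hv]; push_cast; ring⟩
    intro h0
    have ht10 : t₁ = 0 := by omega
    rw [ht10] at hv
    rw [hv] at ht'
    apply ht0
    have : t ^ 2 = 0 := by rw [← ht']; ring
    exact pow_eq_zero_iff (two_ne_zero) |>.1 this

/-- second half of Lemma A. -/
theorem descent_lemmaA2 (α β w : ℤ) (hab : IsCoprime (α ^ 2) (β ^ 2)) (hw : w ≠ 0)
    (h : (α ^ 2 - β ^ 2) * (α ^ 2 - 81 * β ^ 2) = w ^ 2) :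
    ∃ d : ℤ, (d = 1 ∨ d = -1 ∨ d = 5 ∨ d = -5) ∧
      IsSquare (d * (α ^ 2 - β ^ 2)) ∧ IsSquare (d * (α ^ 2 - 81 * β ^ 2)) := by
  obtain ⟨ε, s, t, hε, -, hu, hv⟩ := descent_lemmaG _ _ w hw h
  set g : ℕ := Int.gcd (α ^ 2 - β ^ 2) (α ^ 2 - 81 * β ^ 2) with hg
  have hgu : (g : ℤ) ∣ α ^ 2 - β ^ 2 := Int.gcd_dvd_left ..
  have hgv : (g : ℤ) ∣ α ^ 2 - 81 * β ^ 2 := Int.gcd_dvd_right ..
  have hε2 : ε * ε = 1 := by rcases hε with rfl | rfl <;> norm_num
  have hg80 : (g : ℤ) ∣ 80 := by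
    obtain ⟨m, n, hmn⟩ := hab
    have e : (80 : ℤ) = m * (81 * (α ^ 2 - β ^ 2) - (α ^ 2 - 81 * β ^ 2)) +
        n * ((α ^ 2 - β ^ 2) - (α ^ 2 - 81 * β ^ 2)) := by
      linear_combination (-80 : ℤ) * hmn
    rw [e]
    exact dvd_add (Dvd.dvd.mul_left (dvd_sub (Dvd.dvd.mul_left hgu _) hgv) _)
      (Dvd.dvd.mul_left (dvd_sub hgu hgv) _)
  have hg80' : g ∣ 80 := by exact_mod_cast hg80
  have hgmem : g ∈ Nat.divisors 80 := Nat.mem_divisors.2 ⟨hg80', by norm_num⟩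
  have hdiv : Nat.divisors 80 = {1, 2, 4, 5, 8, 10, 16, 20, 40, 80} := by decide
  rw [hdiv] at hgmem
  -- consequences of `g` even
  have heven : (2 : ℤ) ∣ g → α % 2 = 1 ∧ β % 2 = 1 ∧ (8 : ℤ) ∣ g := by
    intro h2
    have h2u : (2 : ℤ) ∣ α ^ 2 - β ^ 2 := h2.trans hgu
    have hnot : ¬ ((2 : ℤ) ∣ α ∧ (2 : ℤ) ∣ β) := by
      rintro ⟨h1, h2⟩
      have := hab.isUnit_of_dvd' (Dvd.dvd.pow h1 (by norm_num)) (Dvd.dvd.pow h2 (by norm_num))
      norm_num [Int.isUnit_iff] at this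
    have hα : α % 2 = 1 := by
      by_contra hcon
      have hα2 : (2 : ℤ) ∣ α := by omega
      have hα22 : (2 : ℤ) ∣ α ^ 2 := Dvd.dvd.pow hα2 (by norm_num)
      have hβ22 : (2 : ℤ) ∣ β ^ 2 := by
        have := dvd_sub hα22 h2u
        simpa using this
      exact hnot ⟨hα2, Int.prime_two.dvd_of_dvd_pow hβ22⟩
    have hβ : β % 2 = 1 := by
      by_contra hcon
      have hβ2 : (2 : ℤ) ∣ β := by omega
      have hβ22 : (2 : ℤ) ∣ β ^ 2 := Dvd.dvd.pow hβ2 (by norm_num)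
      have hα22 : (2 : ℤ) ∣ α ^ 2 := by
        have := dvd_add h2u hβ22
        simpa using this
      exact hnot ⟨Int.prime_two.dvd_of_dvd_pow hα22, hβ2⟩
    refine ⟨hα, hβ, ?_⟩
    have h1 := descent_sq_mod8 α hα
    have h2 := descent_sq_mod8 β hβ
    exact Int.dvd_coe_gcd (by omega) (by omega)
  have hdiff : 80 * β ^ 2 = ε * g * (s ^ 2 - t ^ 2) := by
    have : 80 * β ^ 2 = (α ^ 2 - β ^ 2) - (α ^ 2 - 81 * β ^ 2) := by ring
    rw [this]
    conv_lhs => rw [hu, hv]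
    ring
  have hbad : ∀ c : ℤ, (c : ZMod 4) = 2 → β % 2 = 1 → c * β ^ 2 = ε * (s ^ 2 - t ^ 2) → False := by
    intro c hc hβ hcβ
    have hz := congrArg (Int.cast : ℤ → ZMod 4) hcβ
    push_cast at hz
    rw [hc] at hz
    obtain ⟨h1, h2⟩ := descent_mod4 (β : ZMod 4) s t (descent_cast_odd β hβ)
    rcases hε with rfl | rfl
    · apply h1; rw [hz]; push_cast; ring
    · apply h2; rw [hz]; push_cast; ring
  simp only [Finset.mem_insert, Finset.mem_singleton] at hgmem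
  rcases hgmem with hg1 | hg1 | hg1 | hg1 | hg1 | hg1 | hg1 | hg1 | hg1 | hg1
  · -- g = 1
    rw [hg1] at hu hv
    refine ⟨ε, by rcases hε with rfl | rfl <;> simp, ⟨s, ?_⟩, ⟨t, ?_⟩⟩
    · rw [hu]; push_cast; linear_combination (s ^ 2) * hε2
    · rw [hv]; push_cast; linear_combination (t ^ 2) * hε2
  · -- g = 2
    exfalso
    obtain ⟨-, -, h8⟩ := heven (by rw [hg1]; norm_num)
    rw [hg1] at h8
    norm_num at h8
  · -- g = 4
    rw [hg1] at hu hv
    refine ⟨ε, by rcases hε with rfl | rfl <;> simp, ⟨2 * s, ?_⟩, ⟨2 * t, ?_⟩⟩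
    · rw [hu]; push_cast; linear_combination (4 * s ^ 2) * hε2
    · rw [hv]; push_cast; linear_combination (4 * t ^ 2) * hε2
  · -- g = 5
    rw [hg1] at hu hv
    refine ⟨5 * ε, by rcases hε with rfl | rfl <;> simp, ⟨5 * s, ?_⟩, ⟨5 * t, ?_⟩⟩
    · rw [hu]; push_cast; linear_combination (25 * s ^ 2) * hε2
    · rw [hv]; push_cast; linear_combination (25 * t ^ 2) * hε2
  · -- g = 8
    exfalso
    obtain ⟨-, hβ, -⟩ := heven (by rw [hg1]; norm_num)
    rw [hg1] at hdiff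
    push_cast at hdiff
    exact hbad 10 (by decide) hβ (by linarith)
  · -- g = 10
    exfalso
    obtain ⟨-, -, h8⟩ := heven (by rw [hg1]; norm_num)
    rw [hg1] at h8
    norm_num at h8
  · -- g = 16
    rw [hg1] at hu hv
    refine ⟨ε, by rcases hε with rfl | rfl <;> simp, ⟨4 * s, ?_⟩, ⟨4 * t, ?_⟩⟩
    · rw [hu]; push_cast; linear_combination (16 * s ^ 2) * hε2
    · rw [hv]; push_cast; linear_combination (16 * t ^ 2) * hε2
  · -- g = 20
    rw [hg1] at hu hv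
    refine ⟨5 * ε, by rcases hε with rfl | rfl <;> simp, ⟨10 * s, ?_⟩, ⟨10 * t, ?_⟩⟩
    · rw [hu]; push_cast; linear_combination (100 * s ^ 2) * hε2
    · rw [hv]; push_cast; linear_combination (100 * t ^ 2) * hε2
  · -- g = 40
    exfalso
    obtain ⟨-, hβ, -⟩ := heven (by rw [hg1]; norm_num)
    rw [hg1] at hdiff
    push_cast at hdiff
    exact hbad 2 (by decide) hβ (by linarith)
  · -- g = 80
    rw [hg1] at hu hv
    refine ⟨5 * ε, by rcases hε with rfl | rfl <;> simp, ⟨20 * s, ?_⟩, ⟨20 * t, ?_⟩⟩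
    · rw [hu]; push_cast; linear_combination (400 * s ^ 2) * hε2
    · rw [hv]; push_cast; linear_combination (400 * t ^ 2) * hε2

/-- Lemma A over `ℚ`. -/
theorem descent_lemmaAQ (x : ℚ) (h0 : x ≠ 0) (h1 : x ≠ 1) (h81 : x ≠ 81)
    (h : IsSquare (x * (x - 1) * (x - 81))) :
    IsSquare x ∧ ∃ d : ℚ, (d = 1 ∨ d = -1 ∨ d = 5 ∨ d = -5) ∧
      IsSquare (d * (x - 1)) ∧ IsSquare (d * (x - 81)) := by
  set a : ℤ := x.num with ha
  set b : ℤ := (x.den : ℤ) with hb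
  have hbpos : 0 < b := by rw [hb]; exact_mod_cast x.den_pos
  have hbQ : (b : ℚ) ≠ 0 := by exact_mod_cast hbpos.ne'
  have hx : x = (a : ℚ) / (b : ℚ) := by
    rw [ha, hb]; exact_mod_cast (Rat.num_div_den x).symm
  have hab : IsCoprime a b := Rat.isCoprime_num_den x
  have hprod : ((a * b * (a - b) * (a - 81 * b) : ℤ) : ℚ) =
      (x * (x - 1) * (x - 81)) * ((b : ℚ) ^ 2 * (b : ℚ) ^ 2) := by
    rw [hx]; push_cast; field_simp
  have hsq : IsSquare ((a * b * (a - b) * (a - 81 * b) : ℤ) : ℚ) := by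
    rw [hprod]
    exact h.mul ⟨(b : ℚ) ^ 2, rfl⟩
  rw [Rat.isSquare_intCast_iff] at hsq
  obtain ⟨N, hN⟩ := hsq
  have hN0 : N ≠ 0 := by
    rintro rfl
    have hz : ((a * b * (a - b) * (a - 81 * b) : ℤ) : ℚ) = 0 := by rw [hN]; simp
    rw [hprod] at hz
    have h1' : x - 1 ≠ 0 := sub_ne_zero.2 h1
    have h81' : x - 81 ≠ 0 := sub_ne_zero.2 h81
    have : (x * (x - 1) * (x - 81)) * ((b : ℚ) ^ 2 * (b : ℚ) ^ 2) ≠ 0 := by positivity
    exact this hz
  obtain ⟨α, β, w, hα, hβ, hw, hw2⟩ := descent_lemmaA1 a b N hab hbpos hN0 (by rw [hN]; ring)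
  have hβ0 : (β : ℚ) ≠ 0 := by
    intro h0
    apply hbQ
    rw [hβ]; push_cast; rw [h0]; ring
  obtain ⟨d, hd, ⟨m, hm⟩, ⟨n, hn⟩⟩ := descent_lemmaA2 α β w (by rw [← hα, ← hβ]; exact hab) hw
    (by rw [← hα, ← hβ]; exact hw2)
  have hxαβ : x = (α : ℚ) ^ 2 / (β : ℚ) ^ 2 := by
    rw [hx, hα, hβ]; push_cast; ring
  refine ⟨⟨(α : ℚ) / β, ?_⟩, (d : ℚ), ?_, ⟨(m : ℚ) / β, ?_⟩, ⟨(n : ℚ) / β, ?_⟩⟩
  · rw [hxαβ]; field_simp
  · rcases hd with rfl | rfl | rfl | rfl <;> simp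
  · have hmQ : (d : ℚ) * ((α : ℚ) ^ 2 - (β : ℚ) ^ 2) = (m : ℚ) * m := by exact_mod_cast hm
    rw [hxαβ]
    field_simp
    linear_combination hmQ
  · have hnQ : (d : ℚ) * ((α : ℚ) ^ 2 - 81 * (β : ℚ) ^ 2) = (n : ℚ) * n := by exact_mod_cast hn
    rw [hxαβ]
    field_simp
    linear_combination hnQ

/-- `x` is *good* if `x`, `x - 1`, `x - 81` are all squares. -/
def DescentGood (x : ℚ) : Prop := IsSquare x ∧ IsSquare (x - 1) ∧ IsSquare (x - 81)

/-- Translating by a 2-torsion point we reach a good point. -/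
theorem descent_translate (x : ℚ) (h0 : x ≠ 0) (h1 : x ≠ 1) (h81 : x ≠ 81)
    (h : IsSquare (x * (x - 1) * (x - 81))) :
    DescentGood x ∨ DescentGood (81 / x) ∨ DescentGood (81 * (x - 1) / (x - 81)) ∨
      DescentGood ((x - 81) / (x - 1)) := by
  obtain ⟨⟨r, hr⟩, d, hd, ⟨m, hm⟩, ⟨n, hn⟩⟩ := descent_lemmaAQ x h0 h1 h81 h
  have h1' : x - 1 ≠ 0 := sub_ne_zero.2 h1
  have h81' : x - 81 ≠ 0 := sub_ne_zero.2 h81
  rcases hd with rfl | rfl | rfl | rfl
  · left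
    exact ⟨⟨r, hr⟩, ⟨m, by linarith⟩, ⟨n, by linarith⟩⟩
  · right; left
    refine ⟨⟨9 * r / x, ?_⟩, ⟨n * r / x, ?_⟩, ⟨9 * m * r / x, ?_⟩⟩
    · field_simp
      linear_combination (81 : ℚ) * hr
    · field_simp
      linear_combination (n * n) * hr + x * hn
    · field_simp
      linear_combination (81 * m * m) * hr + (81 * x) * hm
  · right; right; left
    refine ⟨⟨9 * m * n / (5 * (x - 81)), ?_⟩, ⟨4 * r * n / (x - 81), ?_⟩, ⟨36 * n / (x - 81), ?_⟩⟩
    · field_simp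
      linear_combination (81 * n * n) * hm + (81 * 5 * (x - 1)) * hn
    · field_simp
      linear_combination (16 * n * n) * hr + (16 * x) * hn
    · field_simp
      linear_combination (36 * 36 : ℚ) * hn
  · right; right; right
    refine ⟨⟨m * n / (5 * (x - 1)), ?_⟩, ⟨4 * m / (x - 1), ?_⟩, ⟨4 * r * m / (x - 1), ?_⟩⟩
    · field_simp
      linear_combination (n * n) * hm + (-5 * (x - 1)) * hn
    · field_simp
      linear_combination (16 : ℚ) * hm
    · field_simp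
      linear_combination (16 * m * m) * hr + (16 * x) * hm

theorem descent_int_of_sq (q : ℚ) (n : ℤ) (h : q * q = n) : ∃ m : ℤ, q = m := by
  have hsq : IsSquare ((n : ℤ) : ℚ) := ⟨q, h.symm⟩
  rw [Rat.isSquare_intCast_iff] at hsq
  obtain ⟨m, rfl⟩ := hsq
  have : q * q = (m : ℚ) * m := by rw [h]; push_cast; ring
  rcases mul_self_eq_mul_self_iff.1 this with h1 | h1
  · exact ⟨m, h1⟩
  · exact ⟨-m, by rw [h1]; push_cast; ring⟩

/-- The numerator drops under halving. -/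
theorem descent_num_lt (x r₁ r₂ r₃ : ℚ) (h1 : x = r₁ * r₁) (h2 : x - 1 = r₂ * r₂)
    (h3 : x - 81 = r₃ * r₃) :
    ((r₁ + r₂) * (r₁ + r₃)).num.natAbs < x.num.natAbs := by
  set α : ℤ := r₁.num with hα
  set e : ℤ := (r₁.den : ℤ) with he
  have hepos : 0 < e := by rw [he]; exact_mod_cast r₁.den_pos
  have heQ : (e : ℚ) ≠ 0 := by exact_mod_cast hepos.ne'
  have hr₁ : r₁ = (α : ℚ) / e := by
    rw [hα, he]; exact_mod_cast (Rat.num_div_den r₁).symm
  have her₁ : (e : ℚ) * r₁ = α := by rw [hr₁]; field_simp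
  obtain ⟨β, hβ⟩ := descent_int_of_sq ((e : ℚ) * r₂) (α ^ 2 - e ^ 2) (by
    push_cast
    rw [← her₁]
    linear_combination (-(e : ℚ) ^ 2) * h2 + (e : ℚ) ^ 2 * h1)
  obtain ⟨γ, hγ⟩ := descent_int_of_sq ((e : ℚ) * r₃) (α ^ 2 - 81 * e ^ 2) (by
    push_cast
    rw [← her₁]
    linear_combination (-(e : ℚ) ^ 2) * h3 + (e : ℚ) ^ 2 * h1)
  have hγ2 : γ ^ 2 = α ^ 2 - 81 * e ^ 2 := by
    have : ((γ ^ 2 : ℤ) : ℚ) = ((α ^ 2 - 81 * e ^ 2 : ℤ) : ℚ) := by
      push_cast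
      rw [← hγ, ← her₁]
      linear_combination (-(e : ℚ) ^ 2) * h3 + (e : ℚ) ^ 2 * h1
    exact_mod_cast this
  have hp12 : (r₁ + r₂) * (r₁ - r₂) = 1 := by linear_combination h2 - h1
  have hp13 : (r₁ + r₃) * (r₁ - r₃) = 81 := by linear_combination h3 - h1
  have hm12 : r₁ - r₂ ≠ 0 := by
    intro h0; rw [h0] at hp12; norm_num at hp12
  have hs13 : r₁ + r₃ ≠ 0 := by
    intro h0; rw [h0] at hp13; norm_num at hp13
  have hden : α - β ≠ 0 := by
    intro h0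
    apply hm12
    have : (e : ℚ) * (r₁ - r₂) = 0 := by
      rw [mul_sub, her₁, hβ]; exact_mod_cast h0
    exact (mul_eq_zero.1 this).resolve_left heQ
  have hnum : α + γ ≠ 0 := by
    intro h0
    apply hs13
    have : (e : ℚ) * (r₁ + r₃) = 0 := by
      rw [mul_add, her₁, hγ]; exact_mod_cast h0
    exact (mul_eq_zero.1 this).resolve_left heQ
  have hz : (r₁ + r₂) * (r₁ + r₃) = Rat.divInt (α + γ) (α - β) := by
    rw [Rat.divInt_eq_div]
    have hdenQ : ((α - β : ℤ) : ℚ) ≠ 0 := by exact_mod_cast hden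
    rw [eq_div_iff hdenQ]
    push_cast
    rw [← her₁, ← hβ, ← hγ]
    linear_combination ((e : ℚ) * (r₁ + r₃)) * hp12
  have hdvd : ((r₁ + r₂) * (r₁ + r₃)).num ∣ α + γ := by
    rw [hz]; exact Rat.num_dvd _ hden
  have hle : ((r₁ + r₂) * (r₁ + r₃)).num.natAbs ≤ (α + γ).natAbs :=
    Int.natAbs_le_of_dvd_ne_zero hdvd hnum
  have hxnum : x.num = α * α := by rw [h1, Rat.mul_self_num]
  have hγα : |γ| < |α| := by
    rw [← sq_lt_sq, hγ2]
    nlinarith [sq_pos_of_pos hepos]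
  have hα9 : (9 : ℤ) ≤ |α| := by
    have : (9 : ℤ) ^ 2 ≤ α ^ 2 := by nlinarith [sq_nonneg γ, sq_pos_of_pos hepos]
    have := sq_le_sq.1 this
    simpa using this
  have hfin : (α + γ).natAbs < (α * α).natAbs := by
    have h1 : |α + γ| ≤ |α| + |γ| := abs_add_le α γ
    have h2 : |α * α| = |α| * |α| := abs_mul α α
    have h3 : |α + γ| < |α * α| := by rw [h2]; nlinarith
    rw [Int.abs_eq_natAbs, Int.abs_eq_natAbs] at h3
    exact_mod_cast h3
  rw [hxnum]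
  omega

theorem descent_no_good : ∀ (n : ℕ) (x : ℚ), x.num.natAbs = n → ¬ DescentGood x := by
  intro n
  induction n using Nat.strong_induction_on with
  | _ n ih =>
    rintro x hxn ⟨⟨r₁, h1⟩, ⟨r₂, h2⟩, ⟨r₃, h3⟩⟩
    have hp12 : (r₁ + r₂) * (r₁ - r₂) = 1 := by linear_combination h2 - h1
    have hp13 : (r₁ + r₃) * (r₁ - r₃) = 81 := by linear_combination h3 - h1
    have hp23 : (r₂ + r₃) * (r₂ - r₃) = 80 := by linear_combination h3 - h2
    have hs12 : r₁ + r₂ ≠ 0 := by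
      intro h0; rw [h0] at hp12; norm_num at hp12
    have hs13 : r₁ + r₃ ≠ 0 := by
      intro h0; rw [h0] at hp13; norm_num at hp13
    have hs23 : r₂ + r₃ ≠ 0 := by
      intro h0; rw [h0] at hp23; norm_num at hp23
    set x' : ℚ := (r₁ + r₂) * (r₁ + r₃) with hx'
    have e1 : x' - 1 = (r₂ + r₁) * (r₂ + r₃) := by
      rw [hx']; linear_combination h2 - h1
    have e81 : x' - 81 = (r₃ + r₁) * (r₃ + r₂) := by
      rw [hx']; linear_combination h3 - h1
    have hx0 : x' ≠ 0 := mul_ne_zero hs12 hs13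
    have hx1' : x' - 1 ≠ 0 := by
      rw [e1]; exact mul_ne_zero (by rwa [add_comm]) hs23
    have hx81' : x' - 81 ≠ 0 := by
      rw [e81]; exact mul_ne_zero (by rwa [add_comm]) (by rwa [add_comm])
    have hsq : IsSquare (x' * (x' - 1) * (x' - 81)) :=
      ⟨(r₁ + r₂) * (r₁ + r₃) * (r₂ + r₃), by rw [e1, e81, hx']; ring⟩
    rcases descent_translate x' hx0 (sub_ne_zero.1 hx1') (sub_ne_zero.1 hx81') hsq with
      hg | hg | hg | hg
    · exact ih _ (hxn ▸ descent_num_lt x r₁ r₂ r₃ h1 h2 h3) x' rfl hg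
    · have e : 81 / x' = (r₁ + -r₂) * (r₁ + -r₃) := by
        rw [div_eq_iff hx0, hx']
        linear_combination (-((r₁ + r₃) * (r₁ - r₃))) * hp12 - hp13
      rw [e] at hg
      exact ih _ (hxn ▸ descent_num_lt x r₁ (-r₂) (-r₃) h1 (by rw [h2]; ring) (by rw [h3]; ring))
        _ rfl hg
    · have e : 81 * (x' - 1) / (x' - 81) = (r₁ + r₂) * (r₁ + -r₃) := by
        rw [div_eq_iff hx81', e1, e81]
        linear_combination (-((r₁ + r₂) * (r₂ + r₃))) * hp13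
      rw [e] at hg
      exact ih _ (hxn ▸ descent_num_lt x r₁ r₂ (-r₃) h1 h2 (by rw [h3]; ring)) _ rfl hg
    · have e : (x' - 81) / (x' - 1) = (r₁ + -r₂) * (r₁ + r₃) := by
        rw [div_eq_iff hx1', e1, e81]
        linear_combination (-((r₁ + r₃) * (r₂ + r₃))) * hp12
      rw [e] at hg
      exact ih _ (hxn ▸ descent_num_lt x r₁ (-r₂) r₃ h1 (by rw [h2]; ring) h3) _ rfl hg

/-- The rational points of `y² = x (x - 1) (x - 81)` are the 2-torsion points. -/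
theorem descent (x : ℚ) (h : IsSquare (x * (x - 1) * (x - 81))) : x = 0 ∨ x = 1 ∨ x = 81 := by
  by_contra hcon
  push Not at hcon
  obtain ⟨h0, h1, h81⟩ := hcon
  rcases descent_translate x h0 h1 h81 h with hg | hg | hg | hg <;>
    exact descent_no_good _ _ rfl hg

end Fermat.Agent.S51
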