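import Fermat.Agent.S51.Curve

set_option autoImplicit false
set_option linter.unusedSectionVars false

namespace Fermat.Agent.S51

open WeierstrassCurve WeierstrassCurve.Affine

variable {K : Type*} [Field K] [CharZero K] [DecidableEq K] {E : Affine K}

/-- the 3-division polynomial in short form -/
def psi3 (A B X : K) : K := 3 * X ^ 4 + 6 * A * X ^ 2 + 12 * B * X - A ^ 2

lemma psi3_eq (A B X : K) : psi3 A B X = X * (4 * ff A B X) - gg A B X := by
  unfold psi3 ff gg; ring

lemma ff_ne_zero_of_gg {A B X : K} (hd : 4 * A ^ 3 + 27 * B ^ 2 ≠ 0) (h : ff A B X = 0) :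
    gg A B X ≠ 0 := by
  intro hg
  have := bezout_ff_gg A B X
  rw [h, hg] at this
  apply hd
  have h4 : (4 : K) ≠ 0 := by norm_num
  have h5 : 4 * (4 * A ^ 3 + 27 * B ^ 2) = 0 := by rw [← this]; ring
  exact (mul_eq_zero.1 h5).resolve_left h4

lemma disc_ne_zero (hΔ : E.Δ ≠ 0) : 4 * (sA E) ^ 3 + 27 * (sB E) ^ 2 ≠ 0 := by
  intro h
  apply hΔ
  rw [← disc_short, h, mul_zero]

/-- nonzero 3-torsion points have `X`-coordinate a root of `psi3`. -/
lemma psi3_of_three_torsion {P : E.Point} (hP : P ≠ 0) (h3 : (3 : ℤ) • P = 0) :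
    psi3 (sA E) (sB E) (Xc P) = 0 := by
  have h2 : P + P = -P := by
    rw [eq_neg_iff_add_eq_zero, ← h3]; abel
  have h2' : P + P ≠ 0 := by rw [h2]; simpa using hP
  have := dup_Xc hP h2'
  rw [h2, Xc_neg] at this
  rw [psi3_eq, this, sub_self]

lemma exists_three_torsion [IsAlgClosed K] (hΔ : E.Δ ≠ 0) :
    ∃ P : E.Point, P ≠ 0 ∧ (3 : ℤ) • P = 0 := by
  obtain ⟨X, hX⟩ := IsAlgClosed.exists_root
    (Polynomial.C 3 * Polynomial.X ^ 4 + Polynomial.C (6 * sA E) * Polynomial.X ^ 2
      + Polynomial.C (12 * sB E) * Polynomial.X - Polynomial.C ((sA E) ^ 2) : Polynomial K) (by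
      intro h
      have : (Polynomial.C 3 * Polynomial.X ^ 4 + Polynomial.C (6 * sA E) * Polynomial.X ^ 2
      + Polynomial.C (12 * sB E) * Polynomial.X - Polynomial.C ((sA E) ^ 2) : Polynomial K).degree
          = 4 := by
        compute_degree!
      rw [this] at h
      exact absurd h (by decide))
  have hpsi : psi3 (sA E) (sB E) X = 0 := by
    simp only [Polynomial.IsRoot, Polynomial.eval_sub, Polynomial.eval_add, Polynomial.eval_pow,
      Polynomial.eval_X, Polynomial.eval_mul, Polynomial.eval_C] at hX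
    unfold psi3
    linear_combination hX
  obtain ⟨P, hP, rfl⟩ := exists_point hΔ X
  refine ⟨P, hP, ?_⟩
  have hf : ff (sA E) (sB E) (Xc P) ≠ 0 := by
    intro hf
    apply ff_ne_zero_of_gg (disc_ne_zero hΔ) hf
    rw [psi3_eq, hf] at hpsi
    linear_combination -hpsi
  have h2 : P + P ≠ 0 := (ff_ne_zero_iff hP).1 hf
  have hd := dup_Xc hP h2
  have hX2 : Xc (P + P) = Xc P := by
    have h4 : (4 * ff (sA E) (sB E) (Xc P)) ≠ 0 := mul_ne_zero (by norm_num) hf
    apply mul_right_cancel₀ h4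
    rw [hd]
    rw [psi3_eq] at hpsi
    linear_combination -hpsi
  rcases (Xc_eq_iff h2 hP).1 hX2 with h | h
  · exact absurd (by simpa using h) hP
  · have : (3 : ℤ) • P = P + P + P := by abel
    rw [this, h]; simp

/-- relations satisfied by a nonzero 5-torsion point. -/
lemma rel_of_five_torsion {P : E.Point} (hP : P ≠ 0) (h5 : (5 : ℤ) • P = 0) :
    P + P ≠ 0 ∧
    Xc (P + P) * (4 * ff (sA E) (sB E) (Xc P)) = gg (sA E) (sB E) (Xc P) ∧
    Xc P * (4 * ff (sA E) (sB E) (Xc (P + P))) = gg (sA E) (sB E) (Xc (P + P)) ∧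
    Xc P ≠ Xc (P + P) ∧ ff (sA E) (sB E) (Xc P) ≠ 0 := by
  have h2 : P + P ≠ 0 := by
    intro h
    apply hP
    have : P = (5 : ℤ) • P - (P + P) - (P + P) := by abel
    rw [this, h5, h]; simp
  have h4 : (P + P) + (P + P) = -P := by
    rw [eq_neg_iff_add_eq_zero, ← h5]; abel
  have h4' : (P + P) + (P + P) ≠ 0 := by rw [h4]; simpa using hP
  refine ⟨h2, dup_Xc hP h2, ?_, ?_, (ff_ne_zero_iff hP).2 h2⟩
  · have := dup_Xc h2 h4'
    rwa [h4, Xc_neg] at this
  · intro h
    rcases (Xc_eq_iff hP h2).1 h with h | h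
    · apply hP
      have : P = (P + P) - P := by abel
      rw [this, ← h]; simp
    · apply hP
      have h3 : P + (P + P) = 0 := by rw [← eq_neg_iff_add_eq_zero]; exact h
      have : P = (P + (P + P)) + (P + (P + P)) - (5 : ℤ) • P := by abel
      rw [this, h5, h3]; simp

end Fermat.Agent.S51
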